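import Fermat.Agent.SegreCubic.Dominant
import Mathlib.Algebra.MvPolynomial.Funext

/-!
# Segre's theorem

A good point gives an asymptotic direction `s` and a parameter `u` avoiding finitely many values, so
the iterated tangent construction is dominant.
-/

set_option autoImplicit false
set_option linter.unusedSectionVars false

noncomputable section

namespace FA.SegreCubic

variable {c : Fin 4 → Fin 4 → Fin 4 → ℚ}

namespace Frame

variable (T : Frame c) {K : Type*} [Field K] [Algebra ℚ K]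

/-- The Gram entries on the two tangent vectors. -/
def gram : ℚ × ℚ × ℚ :=
  (tri c (T.pt ℚ) (T.dir₁ ℚ) (T.dir₁ ℚ), tri c (T.pt ℚ) (T.dir₁ ℚ) (T.dir₂ ℚ),
    tri c (T.pt ℚ) (T.dir₂ ℚ) (T.dir₂ ℚ))

theorem gram_cast (f : ℚ →ₐ[ℚ] K) :
    f T.gram.1 = tri c (T.pt K) (T.dir₁ K) (T.dir₁ K) ∧
      f T.gram.2.1 = tri c (T.pt K) (T.dir₁ K) (T.dir₂ K) ∧
      f T.gram.2.2 = tri c (T.pt K) (T.dir₂ K) (T.dir₂ K) := by
  simp only [gram]
  refine ⟨?_, ?_, ?_⟩ <;> rw [map_tri] <;>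
    simp only [T.map_pt, T.map_dir₁, T.map_dir₂]

theorem polar_eq (f : ℚ →ₐ[ℚ] K) (s u : K) :
    T.polar s u = f T.gram.1 + (s + u) * f T.gram.2.1 + s * u * f T.gram.2.2 := by
  obtain ⟨h₁, h₂, h₃⟩ := T.gram_cast f
  rw [h₁, h₂, h₃, polar, dir, dir]
  simp only [tri_add₂, tri_add₃, tri_smul₂, tri_smul₃]
  rw [tri_swap₂₃ T.symm (T.pt K) (T.dir₂ K) (T.dir₁ K)]
  ring

theorem gram_ne (hnode : ∀ v, tri c T.P T.P v = 0 →
    (∀ u, tri c T.P T.P u = 0 → tri c T.P v u = 0) → ∃ s : ℚ, v = s • T.P) :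
    T.gram.1 * T.gram.2.2 - T.gram.2.1 ^ 2 ≠ 0 := by
  intro h
  have hpt : T.pt ℚ = T.P := funext fun i => by simp [pt]
  obtain ⟨a, b, hab, ea, eb⟩ : ∃ a b : ℚ, (a ≠ 0 ∨ b ≠ 0) ∧
      a * T.gram.1 + b * T.gram.2.1 = 0 ∧ a * T.gram.2.1 + b * T.gram.2.2 = 0 := by
    by_cases hγ : T.gram.2.2 = 0
    · have hβ : T.gram.2.1 = 0 := by rw [hγ] at h; simpa using h
      exact ⟨0, 1, Or.inr one_ne_zero, by simp [hβ], by simp [hγ]⟩
    · exact ⟨T.gram.2.2, -T.gram.2.1, Or.inl hγ, by linear_combination h, by ring⟩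
  set v := a • T.dir₁ ℚ + b • T.dir₂ ℚ with hv
  have hv0 : tri c T.P T.P v = 0 := by
    rw [← hpt, hv, tri_add₃, tri_smul₃, tri_smul₃, dir₁, dir₂, tri_tanVec, tri_tanVec]
    simp
  obtain ⟨s, hs⟩ := hnode v hv0 fun u hu => by
    obtain ⟨s', a', b', rfl⟩ := T.decompose hu
    have hz : tri c (T.pt ℚ) v (T.pt ℚ) = 0 := by
      rw [tri_swap₂₃ T.symm, hpt]; exact hv0
    rw [← hpt, tri_add₃, tri_smul₃, hz, tri_add₃, tri_smul₃, tri_smul₃, hv]
    simp only [tri_add₂, tri_smul₂]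
    rw [tri_swap₂₃ T.symm (T.pt ℚ) (T.dir₂ ℚ) (T.dir₁ ℚ)]
    simp only [gram] at ea eb
    linear_combination a' * ea + b' * eb
  rw [← hpt] at hs
  obtain ⟨ha, hb, -⟩ := T.independent (hv ▸ hs)
  exact hab.elim (· ha) (· hb)

theorem exists_asymptotic (hdet : T.gram.1 * T.gram.2.2 - T.gram.2.1 ^ 2 ≠ 0) :
    ∃ s : ℂ, T.polar s s = 0 ∧ tri c (T.pt ℂ) (T.dir₂ ℂ) (T.dir s) ≠ 0 := by
  set f := Algebra.ofId ℚ ℂ
  obtain ⟨-, h₂, h₃⟩ := T.gram_cast f
  have h2 : ∀ s : ℂ, tri c (T.pt ℂ) (T.dir₂ ℂ) (T.dir s) = f T.gram.2.1 + s * f T.gram.2.2 := by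
    intro s
    rw [h₂, h₃, dir, tri_add₃, tri_smul₃, tri_swap₂₃ T.symm (T.pt ℂ) (T.dir₂ ℂ) (T.dir₁ ℂ)]
  simp only [h2, T.polar_eq f]
  have hd : f T.gram.1 * f T.gram.2.2 - f T.gram.2.1 ^ 2 ≠ 0 := by
    rw [← map_mul, ← map_pow, ← map_sub]
    exact (map_ne_zero_iff _ f.toRingHom.injective).2 hdet
  generalize f T.gram.1 = α at hd ⊢
  generalize f T.gram.2.1 = β at hd ⊢
  generalize f T.gram.2.2 = γ at hd ⊢
  obtain ⟨w, hw⟩ := IsAlgClosed.exists_pow_nat_eq (β ^ 2 - α * γ) (n := 2) (by norm_num)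
  by_cases hγ : γ = 0
  · subst hγ
    have hβ : β ≠ 0 := fun e => hd (by rw [e]; ring)
    exact ⟨-α / (2 * β), by field_simp; ring, by simpa using hβ⟩
  · refine ⟨(w - β) / γ, ?_, ?_⟩
    · field_simp
      linear_combination hw
    · rw [div_mul_cancel₀ _ hγ, add_sub_cancel]
      intro e
      subst e
      exact hd (by linear_combination hw)

theorem exists_parameter {s : ℂ} (hdet : T.gram.1 * T.gram.2.2 - T.gram.2.1 ^ 2 ≠ 0)
    (hs' : tri c (T.pt ℂ) (T.dir₂ ℂ) (T.dir s) ≠ 0)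
    (hCs : tri c (T.dir s) (T.dir s) (T.dir s) ≠ 0) :
    ∃ u : ℂ, T.polar u u ≠ 0 ∧ T.polar s u ≠ 0 ∧
      tri c (T.dir u) (T.dir u) (T.dir u) ≠ 0 := by
  set f := Algebra.ofId ℚ ℂ
  set pA : Polynomial ℂ := Polynomial.C (f T.gram.1) +
    Polynomial.C (2 * f T.gram.2.1) * Polynomial.X + Polynomial.C (f T.gram.2.2) * Polynomial.X ^ 2
    with hpA
  set pL : Polynomial ℂ := Polynomial.C (f T.gram.1 + s * f T.gram.2.1) +
    Polynomial.C (f T.gram.2.1 + s * f T.gram.2.2) * Polynomial.X with hpL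
  set pC : Polynomial ℂ := tri c (T.dir Polynomial.X) (T.dir Polynomial.X) (T.dir Polynomial.X)
    with hpC
  have eA : ∀ u, pA.eval u = T.polar u u := fun u => by
    simp [hpA, T.polar_eq f]; ring
  have eL : ∀ u, pL.eval u = T.polar s u := fun u => by
    simp [hpL, T.polar_eq f]; ring
  have eC : ∀ u, pC.eval u = tri c (T.dir u) (T.dir u) (T.dir u) := fun u => by
    set φ := (Polynomial.aeval u : Polynomial ℂ →ₐ[ℂ] ℂ).restrictScalars ℚ
    have hX : φ Polynomial.X = u := Polynomial.aeval_X u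
    have := map_tri (c := c) φ (T.dir Polynomial.X) (T.dir Polynomial.X) (T.dir Polynomial.X)
    rw [T.map_dir, hX] at this
    rw [← Polynomial.coe_aeval_eq_eval]
    exact this
  have nA : pA ≠ 0 := fun e => by
    have k := fun n => congrArg (fun p : Polynomial ℂ => p.coeff n) e
    have k0 := k 0; have k1 := k 1; have k2 := k 2
    simp [hpA, Polynomial.coeff_C] at k0 k1 k2
    refine hdet ?_
    rw [k0, k1, k2]
    ring
  have nL : pL ≠ 0 := fun e => by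
    have k1 := congrArg (fun p : Polynomial ℂ => p.coeff 1) e
    simp [hpL, Polynomial.coeff_C] at k1
    obtain ⟨-, h₂, h₃⟩ := T.gram_cast f
    refine hs' ?_
    rw [dir, tri_add₃, tri_smul₃, tri_swap₂₃ T.symm (T.pt ℂ) (T.dir₂ ℂ) (T.dir₁ ℂ), ← h₂, ← h₃]
    exact k1
  have nC : pC ≠ 0 := fun e => hCs (by rw [← eC, e, Polynomial.eval_zero])
  obtain ⟨u, hu⟩ := Infinite.exists_notMem_finset (pA * pL * pC).roots.toFinset
  rw [Multiset.mem_toFinset, Polynomial.mem_roots (mul_ne_zero (mul_ne_zero nA nL) nC),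
    Polynomial.IsRoot, Polynomial.eval_mul, Polynomial.eval_mul, eA, eL, eC, mul_eq_zero,
    mul_eq_zero, not_or, not_or] at hu
  exact ⟨u, hu.1.1, hu.1.2, hu.2⟩

end Frame

open MvPolynomial in
/-- **Segre's theorem**: the rational points are dense on a cubic surface with a good rational
point. -/
theorem segre (hc : IsSymm c) (hirr : Irreducible (cubicForm c)) {P : Fin 4 → ℚ}
    (hP : tri c P P P = 0) (hg : ∃ v, tri c P P v ≠ 0)
    (hnode : ∀ v, tri c P P v = 0 → (∀ u, tri c P P u = 0 → tri c P v u = 0) →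
      ∃ s : ℚ, v = s • P)
    (hline : ∀ v : Fin 4 → ℂ, tri c (algebraMap ℚ ℂ ∘ P) (algebraMap ℚ ℂ ∘ P) v = 0 →
      tri c (algebraMap ℚ ℂ ∘ P) v v = 0 → tri c v v v = 0 →
      ∃ s : ℂ, v = s • (algebraMap ℚ ℂ ∘ P))
    {G : MvPolynomial (Fin 4) ℚ}
    (hG : ∀ v : Fin 4 → ℚ, tri c v v v = 0 → eval v G = 0) : cubicForm c ∣ G := by
  obtain ⟨T, rfl⟩ := exists_frame hc hP hg
  have hdet := T.gram_ne hnode
  obtain ⟨s, hs, hs'⟩ := T.exists_asymptotic hdet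
  have hCs : tri c (T.dir s) (T.dir s) (T.dir s) ≠ 0 := by
    intro h0
    obtain ⟨r, hr⟩ := hline (T.dir s) (T.tri_pt_dir s) hs h0
    have := T.independent (K := ℂ) (a := 1) (b := s) (s := r) (by rw [one_smul]; exact hr)
    exact one_ne_zero this.1
  obtain ⟨u, hAu, hsu, hCu⟩ := T.exists_parameter hdet hs' hCs
  refine dvd_of_tangent hirr (fun i => T.surfPt (X 0) (X 1) (X 2) i) ![1, s, u]
    (T.rank_three hs hs' hCs hCu hAu hsu) ?_ ?_
  · rw [aeval_cubicForm]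
    exact T.tri_surfPt _ _ _
  · refine MvPolynomial.funext fun p => ?_
    rw [map_zero, ← coe_aeval_eq_eval]
    change aeval p (aeval (fun i => T.surfPt (X 0) (X 1) (X 2) i) G) = 0
    rw [← AlgHom.comp_apply, comp_aeval]
    have e := T.map_surfPt (aeval p : MvPolynomial (Fin 3) ℚ →ₐ[ℚ] ℚ) (X 0) (X 1) (X 2)
    change aeval ((aeval p : MvPolynomial (Fin 3) ℚ →ₐ[ℚ] ℚ) ∘ T.surfPt (X 0) (X 1) (X 2)) G = 0
    rw [e]
    exact hG _ (T.tri_surfPt _ _ _)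

end FA.SegreCubic
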