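import Fermat.Agent.SegreCubic.Density
import Mathlib.Algebra.Polynomial.SpecificDegree
import Mathlib.RingTheory.MvPolynomial.Basic
import Mathlib.Algebra.MvPolynomial.NoZeroDivisors

/-!
# Diagonal cubic surfaces

At a point with no zero coordinate the section has a node, and no line passes through it when no two
of the terms `a_i P_i³` cancel.
-/

set_option autoImplicit false
set_option linter.unusedSectionVars false

noncomputable section

namespace FA.SegreCubic

/-- The diagonal tensor. -/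
def diagTensor (a : Fin 4 → ℚ) (i j k : Fin 4) : ℚ := if i = j ∧ j = k then a i else 0

theorem diagTensor_symm (a : Fin 4 → ℚ) : IsSymm (diagTensor a) := by
  intro i j k
  simp only [diagTensor]
  constructor <;> split_ifs <;> grind

theorem tri_diag (a : Fin 4 → ℚ) {R : Type*} [CommRing R] [Algebra ℚ R] (x y z : Fin 4 → R) :
    tri (diagTensor a) x y z = ∑ i, algebraMap ℚ R (a i) * x i * y i * z i := by
  simp [tri, diagTensor, ite_and, apply_ite (algebraMap ℚ R), ite_mul]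

theorem two_terms {K : Type*} [Field K] {k l x y : K} (hk : k ≠ 0) (hl : l ≠ 0) (hkl : k + l ≠ 0)
    (h₁ : k * x + l * y = 0) (h₂ : k * x ^ 2 + l * y ^ 2 = 0) : x = 0 ∧ y = 0 := by
  have hx : x = 0 := by
    rcases mul_eq_zero.1 (show x * (x - y) = 0 from mul_left_cancel₀ hk (by
      linear_combination h₂ - y * h₁)) with h | h
    · exact h
    · rw [sub_eq_zero.1 h] at h₁ ⊢
      exact (mul_eq_zero.1 (show (k + l) * y = 0 by linear_combination h₁)).resolve_left hkl
  subst hx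
  exact ⟨rfl, (mul_eq_zero.1 (show l * y = 0 by linear_combination h₁)).resolve_left hl⟩

/-- Three power sums. -/
theorem three_terms {K : Type*} [Field K] {k₁ k₂ k₃ x y z : K} (h₁ : k₁ ≠ 0) (h₂ : k₂ ≠ 0)
    (h₃ : k₃ ≠ 0) (h₁₂ : k₁ + k₂ ≠ 0) (h₁₃ : k₁ + k₃ ≠ 0) (h₂₃ : k₂ + k₃ ≠ 0)
    (hsum : k₁ + k₂ + k₃ ≠ 0) (e₁ : k₁ * x + k₂ * y + k₃ * z = 0)
    (e₂ : k₁ * x ^ 2 + k₂ * y ^ 2 + k₃ * z ^ 2 = 0)
    (e₃ : k₁ * x ^ 3 + k₂ * y ^ 3 + k₃ * z ^ 3 = 0) : x = 0 ∧ y = 0 ∧ z = 0 := by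
  have key : x * ((x - y) * (x - z)) = 0 :=
    mul_left_cancel₀ h₁ (by linear_combination e₃ - (y + z) * e₂ + y * z * e₁)
  rcases mul_eq_zero.1 key with h | h
  · subst h
    obtain ⟨hy, hz⟩ := two_terms (x := y) (y := z) h₂ h₃ h₂₃ (by linear_combination e₁)
      (by linear_combination e₂)
    exact ⟨rfl, hy, hz⟩
  rcases mul_eq_zero.1 h with h | h
  · obtain rfl := sub_eq_zero.1 h
    obtain ⟨hx, hz⟩ := two_terms (x := x) (y := z) h₁₂ h₃ hsum (by linear_combination e₁)
      (by linear_combination e₂)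
    exact ⟨hx, hx, hz⟩
  · obtain rfl := sub_eq_zero.1 h
    obtain ⟨hx, hy⟩ := two_terms (x := x) (y := y) h₁₃ h₂
      (by intro e; exact hsum (by linear_combination e)) (by linear_combination e₁)
      (by linear_combination e₂)
    exact ⟨hx, hy, hx⟩

open MvPolynomial in
theorem diag_irreducible {a : Fin 4 → ℚ} (ha : ∀ i, a i ≠ 0) :
    Irreducible (cubicForm (diagTensor a)) := by
  set Φ := finSuccEquiv ℚ 3
  rw [← MulEquiv.irreducible_iff Φ]
  set h : MvPolynomial (Fin 3) ℚ := C (a 1 / a 0) * X 0 ^ 3 + C (a 2 / a 0) * X 1 ^ 3 +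
    C (a 3 / a 0) * X 2 ^ 3 with hh
  have e : Φ (cubicForm (diagTensor a)) =
      Polynomial.C (C (a 0)) * (Polynomial.X ^ 3 + Polynomial.C h) := by
    rw [cubicForm, tri_diag, Fin.sum_univ_four]
    have hX : ∀ j : Fin 3, Φ (X j.succ) = Polynomial.C (X j) := fun j => finSuccEquiv_X_succ
    have h0 : Φ (X 0) = Polynomial.X := finSuccEquiv_X_zero
    have hC : ∀ r, Φ (algebraMap ℚ _ r) = Polynomial.C (C r) := fun r => by
      rw [AlgEquiv.commutes]; rfl
    have h1 := hX 0; have h2 := hX 1; have h3 := hX 2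
    simp only [Fin.succ_zero_eq_one, Fin.succ_one_eq_two] at h1 h2
    rw [show Fin.succ (2 : Fin 3) = 3 from rfl] at h3
    simp only [map_add, map_mul, h0, h1, h2, h3, hC, hh, Polynomial.C_pow]
    have hdiv : ∀ b : ℚ, Polynomial.C (C (a 0) : MvPolynomial (Fin 3) ℚ) *
        Polynomial.C (C (b / a 0)) = Polynomial.C (C b) := fun b => by
      rw [← Polynomial.C_mul, ← C_mul, mul_div_cancel₀ _ (ha 0)]
    rw [← hdiv (a 1), ← hdiv (a 2), ← hdiv (a 3)]
    ring
  rw [e, irreducible_isUnit_mul (Polynomial.isUnit_C.2 ((isUnit_iff_ne_zero.2 (ha 0)).map C))]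
  have hmonic := Polynomial.monic_X_pow_add_C h (n := 3) (by norm_num)
  refine (hmonic.irreducible_iff_roots_eq_zero_of_degree_le_three
    (by rw [Polynomial.natDegree_X_pow_add_C]; norm_num)
    (by rw [Polynomial.natDegree_X_pow_add_C])).2 ?_
  rw [Multiset.eq_zero_iff_forall_notMem]
  intro r hr
  rw [Polynomial.mem_roots (Polynomial.monic_X_pow_add_C h (by norm_num)).ne_zero,
    Polynomial.IsRoot, Polynomial.eval_add, Polynomial.eval_pow, Polynomial.eval_X,
    Polynomial.eval_C] at hr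
  set r' := aeval (![Polynomial.X, 1, 0] : Fin 3 → Polynomial ℚ) r with hr'
  have hr3 : r' ^ 3 + (Polynomial.C (a 1 / a 0) * Polynomial.X ^ 3 +
      Polynomial.C (a 2 / a 0)) = 0 := by
    have := congrArg (aeval (![Polynomial.X, 1, 0] : Fin 3 → Polynomial ℚ)) hr
    simpa [hh, ← hr'] using this
  have hdeg : r'.natDegree ≤ 1 := by
    have h3 : (r' ^ 3).natDegree ≤ 3 := by
      rw [eq_neg_of_add_eq_zero_left hr3, Polynomial.natDegree_neg]
      compute_degree
    rw [Polynomial.natDegree_pow] at h3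
    omega
  rw [Polynomial.eq_X_add_C_of_natDegree_le_one hdeg] at hr3
  set u := r'.coeff 1
  set w := r'.coeff 0
  have k₀ := congrArg (Polynomial.eval (0 : ℚ)) hr3
  have k₁ := congrArg (Polynomial.eval (1 : ℚ)) hr3
  have k₂ := congrArg (Polynomial.eval (-1 : ℚ)) hr3
  simp at k₀ k₁ k₂
  have hA : a 1 / a 0 ≠ 0 := div_ne_zero (ha 1) (ha 0)
  have hB : a 2 / a 0 ≠ 0 := div_ne_zero (ha 2) (ha 0)
  have hw : w ≠ 0 := fun e => hB (by rw [e] at k₀; simpa using k₀)
  have huw : u ^ 2 * w = 0 := by linear_combination (k₁ + k₂) / 6 - k₀ / 3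
  have hu : u = 0 := by simpa [hw] using huw
  rw [hu] at k₁
  exact hA (by linear_combination k₁ - k₀)

/-- **Density on diagonal cubic surfaces.** -/
theorem diag_segre {a : Fin 4 → ℚ} (ha : ∀ i, a i ≠ 0) {P : Fin 4 → ℚ}
    (hP : ∑ i, a i * P i ^ 3 = 0) (hPi : ∀ i, P i ≠ 0)
    (hpair : ∀ i : Fin 3, a 0 * P 0 ^ 3 + a i.succ * P i.succ ^ 3 ≠ 0)
    {G : MvPolynomial (Fin 4) ℚ}
    (hG : ∀ v : Fin 4 → ℚ, ∑ i, a i * v i ^ 3 = 0 → MvPolynomial.eval v G = 0) :
    cubicForm (diagTensor a) ∣ G := by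
  have hh : ∀ v : Fin 4 → ℚ, tri (diagTensor a) v v v = ∑ i, a i * v i ^ 3 := fun v => by
    rw [tri_diag]
    exact Finset.sum_congr rfl fun i _ => by simp; ring
  have hgr : ∀ i, grad (diagTensor a) P i = a i * P i ^ 2 := fun i => by
    rw [grad, tri_diag]
    simp [Pi.single_apply]
    ring
  refine segre (diagTensor_symm a) (diag_irreducible ha) (P := P) (by rw [hh, hP])
    ⟨Pi.single 0 1, by
      rw [← grad, hgr]; exact mul_ne_zero (ha 0) (pow_ne_zero _ (hPi 0))⟩
    ?_ ?_ fun v hv => hG v (hh v ▸ hv)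
  · intro v _ hu
    refine ⟨v 0 / P 0, funext fun j => ?_⟩
    have h := hu ((a j * P j ^ 2) • Pi.single 0 1 - (a 0 * P 0 ^ 2) • Pi.single j 1) (by
      rw [tri_sub₃, tri_smul₃, tri_smul₃, ← grad, ← grad, hgr, hgr]; ring)
    rw [tri_sub₃, tri_smul₃, tri_smul₃, tri_diag, tri_diag] at h
    simp [Pi.single_apply] at h
    have h' : P 0 * v j = P j * v 0 := mul_left_cancel₀
      (mul_ne_zero (mul_ne_zero (mul_ne_zero (ha 0) (ha j)) (hPi 0)) (hPi j))
      (by linear_combination -h)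
    rw [Pi.smul_apply, smul_eq_mul, div_mul_eq_mul_div, eq_div_iff (hPi 0)]
    linear_combination h'
  · intro v h₁ h₂ h₃
    set Q : Fin 4 → ℂ := algebraMap ℚ ℂ ∘ P with hQ
    have hQi : ∀ i, Q i ≠ 0 := fun i =>
      (map_ne_zero_iff _ (algebraMap ℚ ℂ).injective).2 (hPi i)
    set t : Fin 4 → ℂ := fun i => v i / Q i - v 0 / Q 0 with ht
    have hv : ∀ i, v i = Q i * (t i + v 0 / Q 0) := fun i => by
      simp only [ht, sub_add_cancel]
      rw [mul_div_cancel₀ _ (hQi i)]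
    set k : Fin 4 → ℂ := fun i => algebraMap ℚ ℂ (a i * P i ^ 3) with hk
    have hkQ : ∀ i, k i = algebraMap ℚ ℂ (a i) * Q i ^ 3 := fun i => by simp [hk, hQ]
    have hksum : ∑ i, k i = 0 := by
      simp only [hk]
      rw [← map_sum, hP, map_zero]
    set r := v 0 / Q 0
    have f₁ : ∑ i, k i * (t i + r) = 0 := by
      rw [← h₁, tri_diag]
      exact Finset.sum_congr rfl fun i _ => by rw [hkQ, hv i]; ring
    have f₂ : ∑ i, k i * (t i + r) ^ 2 = 0 := by
      rw [← h₂, tri_diag]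
      exact Finset.sum_congr rfl fun i _ => by rw [hkQ, hv i]; ring
    have f₃ : ∑ i, k i * (t i + r) ^ 3 = 0 := by
      rw [← h₃, tri_diag]
      exact Finset.sum_congr rfl fun i _ => by rw [hkQ, hv i]; ring
    have ht0 : t 0 = 0 := by simp [ht, r]
    simp only [Fin.sum_univ_four, ht0] at f₁ f₂ f₃ hksum
    have hk0 : ∀ i, k i ≠ 0 := fun i => (map_ne_zero_iff _ (algebraMap ℚ ℂ).injective).2
      (mul_ne_zero (ha i) (pow_ne_zero _ (hPi i)))
    have hkp : ∀ i : Fin 3, k 0 + k i.succ ≠ 0 := fun i => by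
      simp only [hk, ← map_add]
      exact (map_ne_zero_iff _ (algebraMap ℚ ℂ).injective).2 (hpair i)
    obtain ⟨t₁, t₂, t₃⟩ := three_terms (x := t 1) (y := t 2) (z := t 3) (hk0 1) (hk0 2) (hk0 3)
      (fun e => hkp 2 (show k 0 + k 3 = 0 by linear_combination hksum - e))
      (fun e => hkp 1 (show k 0 + k 2 = 0 by linear_combination hksum - e))
      (fun e => hkp 0 (show k 0 + k 1 = 0 by linear_combination hksum - e))
      (fun e => hk0 0 (by linear_combination hksum - e))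
      (by linear_combination f₁ - r * hksum)
      (by linear_combination f₂ - 2 * r * f₁ + r ^ 2 * hksum)
      (by linear_combination f₃ - 3 * r * f₂ + 3 * r ^ 2 * f₁ - r ^ 3 * hksum)
    refine ⟨r, funext fun i => ?_⟩
    rw [hv i, Pi.smul_apply, smul_eq_mul]
    fin_cases i <;> simp [ht0, t₁, t₂, t₃] <;> ring

open MvPolynomial in
theorem diag_totalDegree {a : Fin 4 → ℚ} (ha : a 0 ≠ 0) :
    3 ≤ (cubicForm (diagTensor a)).totalDegree := by
  classical
  have h : coeff (Finsupp.single 0 3) (cubicForm (diagTensor a)) ≠ 0 := by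
    have e : ∀ (r : ℚ) (i : Fin 4), algebraMap ℚ (MvPolynomial (Fin 4) ℚ) r * X i * X i * X i =
        monomial (Finsupp.single i 3) r := fun r i => by
      rw [algebraMap_eq, mul_assoc, mul_assoc, ← pow_two, ← pow_succ', X_pow_eq_monomial,
        C_mul_monomial, mul_one]
    rw [cubicForm, tri_diag, coeff_sum]
    simp only [e, coeff_monomial]
    rw [Finset.sum_eq_single 0 (fun i _ hi => if_neg fun e' => hi
      (Finsupp.single_left_injective (by norm_num : (3 : ℕ) ≠ 0) e')) (by simp), if_pos rfl]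
    exact ha
  simpa using le_totalDegree (mem_support_iff.2 h)

/-- The lines through the rational points are infinite in number. -/
theorem diag_infinite {a : Fin 4 → ℚ} (ha : ∀ i, a i ≠ 0) {P : Fin 4 → ℚ}
    (hP : ∑ i, a i * P i ^ 3 = 0) (hPi : ∀ i, P i ≠ 0)
    (hpair : ∀ i : Fin 3, a 0 * P 0 ^ 3 + a i.succ * P i.succ ^ 3 ≠ 0) (s : Finset (Fin 4 → ℚ)) :
    ∃ v : Fin 4 → ℚ, ∑ i, a i * v i ^ 3 = 0 ∧ v ≠ 0 ∧ ∀ u ∈ s, ∀ r : ℚ, v ≠ r • u := by
  classical
  by_contra! hall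
  set ℓ : (Fin 4 → ℚ) → MvPolynomial (Fin 4) ℚ := fun u =>
    if u 0 = 0 then MvPolynomial.X 0
    else MvPolynomial.C (u 1) * MvPolynomial.X 0 - MvPolynomial.C (u 0) * MvPolynomial.X 1 with hℓ
  have hne : ∀ u, ℓ u ≠ 0 := by
    intro u e
    simp only [hℓ] at e
    split_ifs at e with h
    · exact MvPolynomial.X_ne_zero _ e
    · have := congrArg (MvPolynomial.eval ![0, 1, 0, 0]) e
      simp at this
      exact h this
  have hdeg : ∀ u, (ℓ u).totalDegree ≤ 1 := by
    intro u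
    simp only [hℓ]
    split_ifs
    · simp
    · refine (MvPolynomial.totalDegree_sub _ _).trans (max_le ?_ ?_) <;>
        exact (MvPolynomial.totalDegree_mul _ _).trans (by simp)
  have hvan : ∀ (u : Fin 4 → ℚ) (r : ℚ), MvPolynomial.eval (r • u) (ℓ u) = 0 := by
    intro u r
    simp only [hℓ]
    split_ifs with h
    · simp [h]
    · simp; ring
  have hdvd : cubicForm (diagTensor a) ∣ MvPolynomial.X 0 * ∏ u ∈ s, ℓ u := by
    refine diag_segre ha hP hPi hpair fun v hv => ?_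
    by_cases h0 : v = 0
    · simp [h0]
    obtain ⟨u, hu, r, rfl⟩ := hall v hv h0
    rw [map_mul, map_prod, Finset.prod_eq_zero hu (hvan u r), mul_zero]
  have hprime := UniqueFactorizationMonoid.irreducible_iff_prime.1 (diag_irreducible ha)
  have hsmall : ∀ q : MvPolynomial (Fin 4) ℚ, q ≠ 0 → q.totalDegree ≤ 1 →
      ¬cubicForm (diagTensor a) ∣ q := by
    rintro q hq hq1 ⟨t, rfl⟩
    obtain ⟨h₁, h₂⟩ := mul_ne_zero_iff.1 hq
    rw [MvPolynomial.totalDegree_mul_of_isDomain h₁ h₂] at hq1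
    have := diag_totalDegree (ha 0)
    omega
  rcases hprime.dvd_or_dvd hdvd with h | h
  · exact hsmall _ (MvPolynomial.X_ne_zero _) (by simp) h
  · obtain ⟨u, -, hu⟩ := (hprime.dvd_finsetProd_iff _).1 h
    exact hsmall _ (hne u) (hdeg u) hu

end FA.SegreCubic
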