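import Mathlib.Algebra.MvPolynomial.PDeriv
import Mathlib.Algebra.MvPolynomial.Equiv
import Mathlib.LinearAlgebra.Matrix.Determinant.Basic
import Mathlib.LinearAlgebra.Matrix.NonsingularInverse
import Mathlib.RingTheory.AlgebraicIndependent.Basic
import Mathlib.RingTheory.Polynomial.GaussLemma
import Mathlib.RingTheory.Polynomial.UniqueFactorization
import Mathlib.Data.Complex.Basic
import Mathlib.Algebra.Algebra.Rat
import Mathlib.LinearAlgebra.Matrix.ToLinearEquiv

/-!
# The Jacobian criterion and the elimination step

Polynomials with nonzero Jacobian determinant are algebraically independent; hence if a four-tuple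
of polynomials in three variables has independent partial derivatives at one point and is a zero of
an irreducible `F`, every polynomial vanishing on it is a multiple of `F`.
-/

set_option autoImplicit false
set_option linter.unusedSectionVars false
set_option linter.style.haveILetI false

noncomputable section

open MvPolynomial

namespace FA.SegreCubic

variable {σ τ K : Type*} [Field K]

theorem pderiv_comp_aeval [Fintype σ] (f : σ → MvPolynomial τ K) (R : MvPolynomial σ K) (j : τ) :
    pderiv j (aeval f R) = ∑ i, aeval f (pderiv i R) * pderiv j (f i) := by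
  classical
  induction R using MvPolynomial.induction_on with
  | C a => simp
  | add p q hp hq =>
    rw [map_add, map_add, hp, hq, ← Finset.sum_add_distrib]
    simp only [map_add, add_mul]
  | mul_X p k hp =>
    rw [map_mul, aeval_X, pderiv_mul, hp, Finset.sum_mul]
    simp only [pderiv_mul, pderiv_X, map_add, map_mul, aeval_X, add_mul, Finset.sum_add_distrib]
    congr 1
    · exact Finset.sum_congr rfl fun i _ => by ring
    · rw [Finset.sum_eq_single k (fun i _ hik => by simp [Pi.single_eq_of_ne hik.symm]) (by simp)]
      simp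

theorem totalDegree_pderiv_lt {R : MvPolynomial σ K} {i : σ} (h : pderiv i R ≠ 0) :
    (pderiv i R).totalDegree < R.totalDegree := by
  classical
  obtain ⟨m, hm, e⟩ := Finset.exists_mem_eq_sup _ (support_nonempty.2 h)
    fun m => m.sum fun _ n => n
  rw [totalDegree, e]
  have hm' : coeff (m + Finsupp.single i 1) R ≠ 0 := fun e' => mem_support_iff.1 hm (by
    rw [coeff_pderiv, e', zero_mul])
  refine lt_of_lt_of_le ?_ (le_totalDegree (mem_support_iff.2 hm'))
  rw [Finsupp.sum_add_index' (fun _ => rfl) fun _ _ _ => rfl, Finsupp.sum_single_index rfl]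
  exact Nat.lt_succ_self _

/-- **The Jacobian criterion.** -/
theorem algebraicIndependent_of_jacobian [Fintype σ] [DecidableEq σ] [CharZero K]
    (f : σ → MvPolynomial σ K) (h : (Matrix.of fun i j => pderiv j (f i)).det ≠ 0) :
    AlgebraicIndependent K f := by
  rw [algebraicIndependent_iff]
  intro R
  induction hd : R.totalDegree using Nat.strong_induction_on generalizing R with
  | _ d ih =>
    intro hR
    have hzero : ∀ i, pderiv i R = 0 := by
      intro i
      by_contra hne
      have hv : Matrix.vecMul (fun i => aeval f (pderiv i R))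
          (Matrix.of fun i j => pderiv j (f i)) = 0 := by
        funext j
        have := pderiv_comp_aeval f R j
        rw [hR, map_zero] at this
        simpa [Matrix.vecMul, dotProduct] using this.symm
      have := congrFun (Matrix.eq_zero_of_vecMul_eq_zero h hv) i
      exact hne (ih _ (hd ▸ totalDegree_pderiv_lt hne) _ rfl this)
    have hC : R = C (coeff 0 R) := by
      ext m
      rw [coeff_C]
      split_ifs with hm
      · rw [← hm]
      · obtain ⟨i, hi⟩ : ∃ i, m i ≠ 0 := by
          by_contra! hall
          exact hm (Finsupp.ext fun i => by simp [hall i]).symm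
        have := congrArg (coeff (m - Finsupp.single i 1)) (hzero i)
        rw [coeff_pderiv, coeff_zero, tsub_add_cancel_of_le (by
          simpa [Finsupp.single_le_iff] using Nat.one_le_iff_ne_zero.2 hi)] at this
        exact (mul_eq_zero.1 this).resolve_right (Nat.cast_add_one_ne_zero _)
    rw [hC, aeval_C, algebraMap_eq, C_eq_zero] at hR
    rw [hC, hR, C_0]

/-- An irreducible polynomial of positive degree divides every polynomial sharing a root with it,
when the coefficients embed. -/
theorem dvd_of_common_root {S T : Type*} [CommRing S] [IsDomain S] [IsGCDMonoid S] [CommRing T]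
    [IsDomain T] {ψ : S →+* T} (hψ : Function.Injective ψ) {θ : T} {p q : Polynomial S}
    (hirr : Irreducible p) (hdeg : p.natDegree ≠ 0) (hp : Polynomial.eval₂ ψ θ p = 0)
    (hq : Polynomial.eval₂ ψ θ q = 0) : p ∣ q := by
  have hprim := hirr.isPrimitive hdeg
  refine hprim.dvd_of_fraction_map_dvd_fraction_map (K := FractionRing S) ?_
  have hirrK := (hprim.irreducible_iff_irreducible_map_fraction_map (K := FractionRing S)).1 hirr
  by_contra hnd
  obtain ⟨a, b, hab⟩ := hirrK.coprime_iff_not_dvd.2 hnd
  have hinj : Function.Injective ((algebraMap T (FractionRing T)).comp ψ) :=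
    (IsFractionRing.injective _ _).comp hψ
  obtain ⟨φ, hφ⟩ : ∃ φ : FractionRing S →+* FractionRing T,
      φ.comp (algebraMap S (FractionRing S)) = (algebraMap T (FractionRing T)).comp ψ :=
    ⟨IsLocalization.lift (M := nonZeroDivisors S)
        (fun y => isUnit_iff_ne_zero.2 ((map_ne_zero_iff _ hinj).2
          (nonZeroDivisors.coe_ne_zero y))),
      IsLocalization.lift_comp _⟩
  have key : ∀ r : Polynomial S, Polynomial.eval₂ φ (algebraMap T _ θ)
      (r.map (algebraMap S (FractionRing S))) = algebraMap T _ (Polynomial.eval₂ ψ θ r) := by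
    intro r
    rw [Polynomial.eval₂_map, Polynomial.hom_eval₂, hφ]
  have h := congrArg (Polynomial.eval₂ φ (algebraMap T _ θ)) hab
  rw [Polynomial.eval₂_add, Polynomial.eval₂_mul, Polynomial.eval₂_mul, key, key, hp, hq] at h
  simp at h

/-- Elimination: if three coordinates are independent, the ideal of the point is generated by any
irreducible form in it. -/
theorem dvd_of_independent {F : MvPolynomial (Fin 4) K} (hF : Irreducible F)
    (f : Fin 4 → MvPolynomial (Fin 3) K) (l : Fin 4)
    (hind : AlgebraicIndependent K fun i => f (l.succAbove i)) (hFf : aeval f F = 0)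
    {G : MvPolynomial (Fin 4) K} (hG : aeval f G = 0) : F ∣ G := by
  let Φ : MvPolynomial (Fin 4) K ≃ₐ[K] Polynomial (MvPolynomial (Fin 3) K) :=
    (renameEquiv K (finSuccEquiv' l)).trans (optionEquivLeft K (Fin 3))
  let ψ : MvPolynomial (Fin 3) K →+* MvPolynomial (Fin 3) K :=
    (aeval fun i => f (l.succAbove i)).toRingHom
  have hψ : Function.Injective ψ := hind
  have heval : ∀ H : MvPolynomial (Fin 4) K, Polynomial.eval₂ ψ (f l) (Φ H) = aeval f H := by
    intro H
    induction H using MvPolynomial.induction_on with
    | C a => simp [Φ, ψ, optionEquivLeft_C]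
    | add p q hp hq => rw [map_add, Polynomial.eval₂_add, hp, hq, map_add]
    | mul_X p i hp =>
      rw [map_mul, Polynomial.eval₂_mul, hp, map_mul, aeval_X]
      congr 1
      rcases Fin.eq_self_or_eq_succAbove l i with rfl | ⟨j, rfl⟩
      · simp [Φ, optionEquivLeft_X_none]
      · simp [Φ, ψ, optionEquivLeft_X_some]
  have hirr : Irreducible (Φ F) := (MulEquiv.irreducible_iff Φ).2 hF
  have h0 : Polynomial.eval₂ ψ (f l) (Φ F) = 0 := by rw [heval, hFf]
  have hdeg : (Φ F).natDegree ≠ 0 := fun e => by
    rw [Polynomial.eq_C_of_natDegree_eq_zero e, Polynomial.eval₂_C, map_eq_zero_iff _ hψ] at h0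
    exact hirr.ne_zero (by rw [Polynomial.eq_C_of_natDegree_eq_zero e, h0, Polynomial.C_0])
  have hd := dvd_of_common_root hψ hirr hdeg h0 ((heval G).trans hG)
  simpa using map_dvd Φ.symm hd

/-- **Dominance**: three independent derivatives at one point. -/
theorem dvd_of_tangent {F : MvPolynomial (Fin 4) ℚ} (hF : Irreducible F)
    (f : Fin 4 → MvPolynomial (Fin 3) ℚ) (p : Fin 3 → ℂ)
    (hrank : LinearIndependent ℂ fun j : Fin 3 => fun i => aeval p (pderiv j (f i)))
    (hFf : aeval f F = 0) {G : MvPolynomial (Fin 4) ℚ} (hG : aeval f G = 0) : F ∣ G := by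
  classical
  set v := fun j : Fin 3 => fun i => aeval p (pderiv j (f i)) with hv
  obtain ⟨l, hl⟩ : ∃ l : Fin 4, (Pi.single l 1 : Fin 4 → ℂ) ∉ Submodule.span ℂ (Set.range v) := by
    by_contra! hall
    have htop : Submodule.span ℂ (Set.range v) = ⊤ := by
      refine eq_top_iff.2 ?_
      rw [← (Pi.basisFun ℂ (Fin 4)).span_eq, Submodule.span_le]
      rintro _ ⟨i, rfl⟩
      simpa using hall i
    have := finrank_span_eq_card hrank
    rw [htop, finrank_top, Module.finrank_pi, Fintype.card_fin, Fintype.card_fin] at this
    omega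
  refine dvd_of_independent hF f l (algebraicIndependent_of_jacobian _ fun hdet => ?_) hFf hG
  have hdet' := congrArg (aeval p) hdet
  rw [AlgHom.map_det, map_zero] at hdet'
  obtain ⟨c, hc, hc0⟩ := Matrix.exists_mulVec_eq_zero_iff.2 hdet'
  refine hc (funext (Fintype.linearIndependent_iff.1 hrank c ?_))
  have hrow : ∀ i, (∑ j, c j • v j) (l.succAbove i) = 0 := fun i => by
    have := congrFun hc0 i
    simpa [Matrix.mulVec, dotProduct, v, mul_comm] using this
  by_contra hne
  have hsum : ∑ j, c j • v j = ((∑ j, c j • v j) l) • (Pi.single l 1 : Fin 4 → ℂ) := by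
    funext i
    rcases Fin.eq_self_or_eq_succAbove l i with rfl | ⟨j, rfl⟩
    · simp
    · rw [hrow]; simp [Fin.succAbove_ne]
  have hk : (∑ j, c j • v j) l ≠ 0 := fun e => hne (by rw [hsum, e, zero_smul])
  refine hl ?_
  have hmem : ∑ j, c j • v j ∈ Submodule.span ℂ (Set.range v) :=
    Submodule.sum_mem _ fun j _ => Submodule.smul_mem _ _ (Submodule.subset_span ⟨j, rfl⟩)
  rw [hsum] at hmem
  exact (Submodule.smul_mem_iff _ hk).1 hmem

end FA.SegreCubic
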