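import Fermat.Agent.SegreCubic.Frame
import Fermat.Agent.SegreCubic.Independence

/-!
# The iterated tangent construction is dominant

At the asymptotic direction `λ₀` the curve returns to `P`. The surface map `ν T (λ, μ)` has there
the derivatives `T`, `∂T/∂μ` in the tangent plane at `P` and `∂T/∂λ` off it.
-/

set_option autoImplicit false
set_option linter.unusedSectionVars false
set_option linter.style.haveILetI false

noncomputable section

open MvPolynomial

namespace FA.SegreCubic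

variable {c : Fin 4 → Fin 4 → Fin 4 → ℚ}

/-- The cubic form. -/
def cubicForm (c : Fin 4 → Fin 4 → Fin 4 → ℚ) : MvPolynomial (Fin 4) ℚ := tri c X X X

theorem aeval_cubicForm {R : Type*} [CommRing R] [Algebra ℚ R] (f : Fin 4 → R) :
    aeval f (cubicForm c) = tri c f f f := by
  rw [cubicForm, map_tri]
  congr 1 <;> funext i <;> simp

namespace Frame

variable (T : Frame c)

/-- The derivative of the curve. -/
def dCurvePt {R : Type*} [CommRing R] [Algebra ℚ R] (t : R) : Fin 4 → R :=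
  (3 * tri c (T.dir₂ R) (T.dir t) (T.dir t)) • T.pt R -
    (6 * tri c (T.pt R) (T.dir₂ R) (T.dir t)) • T.dir t -
    (3 * tri c (T.pt R) (T.dir t) (T.dir t)) • T.dir₂ R

variable {R S : Type*} [CommRing R] [Algebra ℚ R] [CommRing S] [Algebra ℚ S] (φ : R →ₐ[ℚ] S)

theorem map_dir₁ : φ ∘ T.dir₁ R = T.dir₁ S := by rw [dir₁, map_tanVec, map_pt]; rfl

theorem map_dir₂ : φ ∘ T.dir₂ R = T.dir₂ S := by rw [dir₂, map_tanVec, map_pt]; rfl

theorem map_dCurvePt (t : R) : φ ∘ T.dCurvePt t = T.dCurvePt (φ t) := by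
  funext i
  simp [dCurvePt, map_tri, map_ofNat, T.map_pt, T.map_dir, T.map_dir₂]
  simp [← T.map_pt φ, ← T.map_dir φ, ← T.map_dir₂ φ]

theorem derivation_pt (D : Derivation ℚ R R) : (fun i => D (T.pt R i)) = 0 := by
  funext i; simp [pt]

theorem derivation_dir_consts (D : Derivation ℚ R R) :
    (∀ i, D (T.dir₁ R i) = 0) ∧ ∀ i, D (T.dir₂ R i) = 0 := by
  constructor <;> intro i
  · have h := congrFun (map_tanVec (c := c) (Algebra.ofId ℚ R) T.i₀ T.j₁ T.P) i
    change D (tanVec c T.i₀ T.j₁ (Algebra.ofId ℚ R ∘ T.P) i) = 0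
    rw [← h]
    exact D.map_algebraMap _
  · have h := congrFun (map_tanVec (c := c) (Algebra.ofId ℚ R) T.i₀ T.j₂ T.P) i
    change D (tanVec c T.i₀ T.j₂ (Algebra.ofId ℚ R ∘ T.P) i) = 0
    rw [← h]
    exact D.map_algebraMap _

theorem derivation_dir (D : Derivation ℚ R R) (t : R) :
    (fun i => D (T.dir t i)) = D t • T.dir₂ R := by
  obtain ⟨h₁, h₂⟩ := T.derivation_dir_consts D
  funext i
  simp [dir, h₁ i, h₂ i, mul_comm]

theorem derivation_curvePt (D : Derivation ℚ R R) (t : R) :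
    (fun i => D (T.curvePt t i)) = D t • T.dCurvePt t := by
  rw [curvePt, derivation_res T.symm, derivation_pt, derivation_dir]
  simp only [tri_smul₁, tri_smul₂]
  funext i
  simp [dCurvePt, tri]
  ring

section Complex

variable {K : Type*} [Field K] [Algebra ℚ K]

/-- The polar of the asymptotic direction. -/
def polar (s u : K) : K := tri c (T.pt K) (T.dir s) (T.dir u)

theorem tri_pt_pt_curvePt (u : K) : tri c (T.pt K) (T.pt K) (T.curvePt u) = 0 :=
  tri_res₃ T.tri_pt (T.tri_pt_dir u)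

theorem curvePt_asymptotic {s : K} (h : T.polar s s = 0) :
    T.curvePt s = tri c (T.dir s) (T.dir s) (T.dir s) • T.pt K := by
  rw [polar] at h
  simp [curvePt, res, h]

theorem dirAt_smul (a : K) (u : K) :
    T.dirAt (a • T.pt K) u = a ^ 2 • T.dir u := by
  simp [dirAt, dir, dir₁, dir₂, tanVec_smul, smul_smul, mul_comm]

theorem curve_independent {u a b : K} (hA : T.polar u u ≠ 0) (h3 : (3 : K) ≠ 0)
    (hC : tri c (T.dir u) (T.dir u) (T.dir u) ≠ 0)
    (h : a • T.curvePt u + b • T.dCurvePt u = 0) : a = 0 ∧ b = 0 := by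
  set C := tri c (T.dir u) (T.dir u) (T.dir u) with hCdef
  set A := 3 * tri c (T.pt K) (T.dir u) (T.dir u) with hAdef
  set C' := 3 * tri c (T.dir₂ K) (T.dir u) (T.dir u)
  set A' := 6 * tri c (T.pt K) (T.dir₂ K) (T.dir u)
  have h' : (-(a * A) - b * A') • T.dir₁ K + (-(a * A * u) - b * A' * u - b * A) • T.dir₂ K =
      (-(a * C) - b * C') • T.pt K := by
    funext i
    have hi := congrFun h i
    have hd : T.dir u i = T.dir₁ K i + u * T.dir₂ K i := rfl
    simp only [curvePt, res, dCurvePt, ← hCdef, ← hAdef, Pi.add_apply, Pi.sub_apply,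
      Pi.smul_apply, smul_eq_mul, Pi.zero_apply] at hi ⊢
    rw [hd] at hi
    linear_combination hi
  obtain ⟨e₁, e₂, e₃⟩ := T.independent h'
  have hA0 : A ≠ 0 := mul_ne_zero h3 hA
  have hb : b = 0 := (mul_eq_zero.1 (show b * A = 0 by
    linear_combination u * e₁ - e₂)).resolve_right hA0
  subst hb
  exact ⟨(mul_eq_zero.1 (show a * C = 0 by linear_combination -e₃)).resolve_right hC, rfl⟩

end Complex

/-- **Dominance** at the parameters `(1, s, u)`. -/
theorem rank_three {s u : ℂ} (hs : T.polar s s = 0)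
    (hs' : tri c (T.pt ℂ) (T.dir₂ ℂ) (T.dir s) ≠ 0)
    (hCs : tri c (T.dir s) (T.dir s) (T.dir s) ≠ 0)
    (hCu : tri c (T.dir u) (T.dir u) (T.dir u) ≠ 0) (hAu : T.polar u u ≠ 0)
    (hsu : T.polar s u ≠ 0) :
    LinearIndependent ℂ fun j : Fin 3 => fun i =>
      aeval ![1, s, u] (pderiv j (T.surfPt (X 0 : MvPolynomial (Fin 3) ℚ) (X 1) (X 2) i)) := by
  set e : MvPolynomial (Fin 3) ℚ →ₐ[ℚ] ℂ := aeval ![1, s, u] with he
  set Q := T.curvePt (X 1 : MvPolynomial (Fin 3) ℚ) with hQ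
  set U := T.dirAt Q (X 2) with hU
  set C₀ := tri c (T.dir s) (T.dir s) (T.dir s) with hC₀
  have eQ : e ∘ Q = C₀ • T.pt ℂ := by
    rw [hQ, map_curvePt, he, aeval_X]
    exact T.curvePt_asymptotic hs
  have eU : e ∘ U = C₀ ^ 2 • T.dir u := by
    rw [hU, map_dirAt, eQ, he, aeval_X]
    exact T.dirAt_smul C₀ u
  have eT : e ∘ res c Q U = C₀ ^ 7 • T.curvePt u := by
    rw [map_res, eQ, eU, res_smul, curvePt]
    ring_nf
  have hT : ∀ j i, e (pderiv j (T.surfPt (X 0 : MvPolynomial (Fin 3) ℚ) (X 1) (X 2) i)) =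
      e (pderiv j (X 0)) * e (res c Q U i) + e (pderiv j (res c Q U i)) := by
    intro j i
    have hn : e (X 0) = 1 := by simp [he]
    simp only [surfPt, ← hQ, ← hU, Pi.smul_apply, smul_eq_mul, pderiv_mul, map_add, map_mul, hn,
      one_mul]
  have hdQ : ∀ j, (fun i => pderiv j (Q i)) =
      pderiv j (X 1) • T.dCurvePt (X 1 : MvPolynomial (Fin 3) ℚ) := fun j =>
    T.derivation_curvePt (pderiv j) (X 1)
  -- the column of `μ`
  have hμ : ∀ i, e (pderiv 2 (res c Q U i)) = C₀ ^ 7 * T.dCurvePt u i := by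
    have dQ : (fun i => pderiv 2 (Q i)) = (0 : Fin 4 → MvPolynomial (Fin 3) ℚ) := by
      rw [hdQ]; simp
    have dtan : ∀ j, (fun i => pderiv 2 (tanVec c T.i₀ j Q i)) =
        (0 : Fin 4 → MvPolynomial (Fin 3) ℚ) := by
      intro j
      have hg : ∀ k, pderiv 2 (grad c Q k) = 0 := fun k => by
        rw [grad, derivation_tri, dQ]
        simp [tri, Pi.single_apply, apply_ite (pderiv (2 : Fin 3))]
      funext i
      simp [tanVec, hg, Pi.single_apply, apply_ite (pderiv (2 : Fin 3))]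
    have dU : (fun i => pderiv 2 (U i)) = tanVec c T.i₀ T.j₂ Q := by
      funext i
      have h₁ := congrFun (dtan T.j₁) i
      have h₂ := congrFun (dtan T.j₂) i
      simp only [Pi.zero_apply] at h₁ h₂
      simp [hU, dirAt, h₁, h₂]
    have h := derivation_res T.symm (pderiv 2) Q U
    rw [dQ, dU] at h
    intro i
    have hi := congrArg e (congrFun h i)
    simp only [Pi.sub_apply, Pi.add_apply, Pi.smul_apply, smul_eq_mul, map_add, map_sub, map_mul,
      map_ofNat, map_tri, Pi.zero_apply, mul_zero, add_zero] at hi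
    have eW : e ∘ tanVec c T.i₀ T.j₂ Q = C₀ ^ 2 • T.dir₂ ℂ := by
      rw [map_tanVec, eQ, tanVec_smul, dir₂]
    have e0 : (e ∘ (0 : Fin 4 → MvPolynomial (Fin 3) ℚ)) = 0 := funext fun _ => map_zero e
    have eQi : e (Q i) = C₀ * T.pt ℂ i := congrFun eQ i
    have eUi : e (U i) = C₀ ^ 2 * T.dir u i := congrFun eU i
    have eWi : e (tanVec c T.i₀ T.j₂ Q i) = C₀ ^ 2 * T.dir₂ ℂ i := congrFun eW i
    rw [eQ, eU, eW, eQi, eUi, eWi, e0] at hi
    refine hi.trans ?_
    simp only [tri_smul₁, tri_smul₂, tri_smul₃, dCurvePt, Pi.sub_apply, Pi.smul_apply, smul_eq_mul]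
    simp [tri]
    ring
  -- the column of `λ` leaves the tangent plane
  have hlam : tri c (T.pt ℂ) (T.pt ℂ) (fun i => e (pderiv 1 (res c Q U i))) ≠ 0 := by
    have hzero : tri c Q Q (res c Q U) = 0 :=
      tri_res₃ (T.tri_curvePt _) (T.tri_dirAt _ _)
    have h := congrArg (fun p => e (pderiv 1 p)) hzero
    simp only [derivation_tri, hdQ 1, pderiv_X_self, one_smul, map_zero, map_add, map_tri] at h
    rw [eQ, eT, map_dCurvePt, he, aeval_X] at h
    simp only [Matrix.cons_val_one, Matrix.cons_val_zero, tri_smul₁, tri_smul₂, tri_smul₃] at h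
    have hsw : tri c (T.pt ℂ) (T.dCurvePt s) (T.curvePt u) =
        tri c (T.dCurvePt s) (T.pt ℂ) (T.curvePt u) := tri_swap₁₂ T.symm _ _ _
    rw [hsw] at h
    have hd : tri c (T.dCurvePt s) (T.pt ℂ) (T.curvePt u) =
        18 * tri c (T.pt ℂ) (T.dir₂ ℂ) (T.dir s) * T.polar u u * T.polar s u := by
      have p₁ : tri c (T.dir s) (T.pt ℂ) (T.pt ℂ) = 0 := by
        rw [tri_swap₁₂ T.symm, tri_swap₂₃ T.symm, tri_pt_dir]
      have p₂ : tri c (T.dir s) (T.pt ℂ) (T.dir u) = T.polar s u := tri_swap₁₂ T.symm _ _ _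
      have p₃ : tri c (T.dir₂ ℂ) (T.pt ℂ) (T.curvePt u) =
          tri c (T.pt ℂ) (T.dir₂ ℂ) (T.curvePt u) := tri_swap₁₂ T.symm _ _ _
      rw [polar] at hs
      simp only [dCurvePt, tri_sub₁, tri_smul₁, T.tri_pt_pt_curvePt, hs]
      simp only [curvePt, res, tri_sub₃, tri_smul₃, p₁, p₂]
      simp only [polar]
      ring
    intro hl
    refine mul_ne_zero (mul_ne_zero (mul_ne_zero (by norm_num : (36 : ℂ) ≠ 0) hs') hAu) hsu ?_
    refine (mul_eq_zero.1 (show C₀ ^ 8 * (36 * tri c (T.pt ℂ) (T.dir₂ ℂ) (T.dir s) *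
      T.polar u u * T.polar s u) = 0 from ?_)).resolve_left (pow_ne_zero _ hCs)
    change _ + _ + C₀ * (C₀ * tri c (T.pt ℂ) (T.pt ℂ) (fun i => e (pderiv 1 (res c Q U i)))) =
      _ at h
    rw [hl, hd] at h
    linear_combination h
  rw [Fintype.linearIndependent_iff]
  intro g hg
  have hv : ∀ i, g 0 * (C₀ ^ 7 * T.curvePt u i + e (pderiv 0 (res c Q U i))) +
      g 1 * e (pderiv 1 (res c Q U i)) + g 2 * (C₀ ^ 7 * T.dCurvePt u i) = 0 := by
    intro i
    have := congrFun hg i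
    simp only [Fin.sum_univ_three, Pi.add_apply, Pi.smul_apply, smul_eq_mul, Pi.zero_apply, hT,
      pderiv_X_self, map_one, one_mul, pderiv_X_of_ne (show (0 : Fin 3) ≠ 1 by decide),
      pderiv_X_of_ne (show (0 : Fin 3) ≠ 2 by decide), map_zero, zero_mul, zero_add, hμ] at this
    rw [show e (res c Q U i) = C₀ ^ 7 * T.curvePt u i from congrFun eT i] at this
    exact this
  have h0 : ∀ i, pderiv (0 : Fin 3) (res c Q U i) = 0 := by
    have dQ : (fun i => pderiv 0 (Q i)) = (0 : Fin 4 → MvPolynomial (Fin 3) ℚ) := by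
      rw [hdQ]; simp
    have hg : ∀ k, pderiv 0 (grad c Q k) = 0 := fun k => by
      rw [grad, derivation_tri, dQ]
      simp [tri, Pi.single_apply, apply_ite (pderiv (0 : Fin 3))]
    have dU : (fun i => pderiv 0 (U i)) = (0 : Fin 4 → MvPolynomial (Fin 3) ℚ) := by
      funext i
      simp [hU, dirAt, tanVec, hg, Pi.single_apply, apply_ite (pderiv (0 : Fin 3))]
    have h := derivation_res T.symm (pderiv 0) Q U
    rw [dQ, dU] at h
    intro i
    rw [congrFun h i]
    simp [tri]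
  simp only [h0, map_zero, add_zero] at hv
  have hg1 : g 1 = 0 := by
    have hsum : tri c (T.pt ℂ) (T.pt ℂ) ((g 0 * C₀ ^ 7) • T.curvePt u +
        g 1 • (fun i => e (pderiv 1 (res c Q U i))) + (g 2 * C₀ ^ 7) • T.dCurvePt u) = 0 := by
      rw [show (g 0 * C₀ ^ 7) • T.curvePt u + g 1 • (fun i => e (pderiv 1 (res c Q U i))) +
          (g 2 * C₀ ^ 7) • T.dCurvePt u = 0 from funext fun i => by
        simp only [Pi.add_apply, Pi.smul_apply, smul_eq_mul, Pi.zero_apply]
        linear_combination hv i]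
      simp [tri]
    have hd₂ : tri c (T.pt ℂ) (T.pt ℂ) (T.dir₂ ℂ) = 0 := tri_tanVec _ _ _
    simp only [tri_add₃, tri_smul₃, T.tri_pt_pt_curvePt, dCurvePt, tri_sub₃, T.tri_pt,
      T.tri_pt_dir, hd₂] at hsum
    simp only [mul_zero, sub_zero, add_zero, zero_add] at hsum
    exact (mul_eq_zero.1 hsum).resolve_right hlam
  have hlin : (g 0 * C₀ ^ 7) • T.curvePt u + (g 2 * C₀ ^ 7) • T.dCurvePt u = 0 := funext fun i => by
    have := hv i
    rw [hg1] at this
    simp only [Pi.add_apply, Pi.smul_apply, smul_eq_mul, Pi.zero_apply]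
    linear_combination this
  obtain ⟨ga, gb⟩ := T.curve_independent hAu (by norm_num) hCu hlin
  intro j
  fin_cases j
  · exact (mul_eq_zero.1 ga).resolve_right (pow_ne_zero _ hCs)
  · exact hg1
  · exact (mul_eq_zero.1 gb).resolve_right (pow_ne_zero _ hCs)

end Frame

end FA.SegreCubic
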