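import Mathlib.Algebra.Algebra.Rat
import Mathlib.RingTheory.Derivation.Basic
import Mathlib.Algebra.BigOperators.Pi

/-!
# Cubic forms through their symmetric trilinear forms

`res A B` is the third intersection of the line through a zero `A` in the tangent direction `B`.
-/

set_option autoImplicit false
set_option linter.unusedSectionVars false

noncomputable section

namespace FA.SegreCubic

variable (c : Fin 4 → Fin 4 → Fin 4 → ℚ) {R S : Type*} [CommRing R] [Algebra ℚ R] [CommRing S]
  [Algebra ℚ S]

/-- Invariance under the transpositions of the three indices. -/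
def IsSymm : Prop := ∀ i j k, c i j k = c j i k ∧ c i j k = c i k j

/-- The trilinear form. -/
def tri (x y z : Fin 4 → R) : R :=
  ∑ i, ∑ j, ∑ k, algebraMap ℚ R (c i j k) * x i * y j * z k

/-- The gradient, up to the factor three. -/
def grad (x : Fin 4 → R) (i : Fin 4) : R := tri c x x (Pi.single i 1)

/-- Vectors in the tangent plane at `x`. -/
def tanVec (i₀ j : Fin 4) (x : Fin 4 → R) : Fin 4 → R :=
  grad c x i₀ • Pi.single j 1 - grad c x j • Pi.single i₀ 1

/-- The third intersection. -/
def res (A B : Fin 4 → R) : Fin 4 → R := tri c B B B • A - (3 * tri c A B B) • B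

variable {c}

theorem tri_swap₁₂ (hc : IsSymm c) (x y z : Fin 4 → R) : tri c x y z = tri c y x z := by
  unfold tri
  rw [Finset.sum_comm]
  refine Finset.sum_congr rfl fun j _ => Finset.sum_congr rfl fun i _ =>
    Finset.sum_congr rfl fun k _ => ?_
  rw [(hc i j k).1]; ring

theorem tri_swap₂₃ (hc : IsSymm c) (x y z : Fin 4 → R) : tri c x y z = tri c x z y := by
  unfold tri
  refine Finset.sum_congr rfl fun i _ => ?_
  rw [Finset.sum_comm]
  refine Finset.sum_congr rfl fun k _ => Finset.sum_congr rfl fun j _ => ?_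
  rw [(hc i j k).2]; ring

theorem tri_add₃ (x y z z' : Fin 4 → R) : tri c x y (z + z') = tri c x y z + tri c x y z' := by
  simp [tri, mul_add, Finset.sum_add_distrib]

theorem tri_smul₃ (a : R) (x y z : Fin 4 → R) : tri c x y (a • z) = a * tri c x y z := by
  simp only [tri, Pi.smul_apply, smul_eq_mul, Finset.mul_sum]
  exact Finset.sum_congr rfl fun _ _ => Finset.sum_congr rfl fun _ _ =>
    Finset.sum_congr rfl fun _ _ => by ring

theorem tri_sub₃ (x y z z' : Fin 4 → R) : tri c x y (z - z') = tri c x y z - tri c x y z' := by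
  simp [tri, mul_sub, Finset.sum_sub_distrib]

theorem tri_smul₁ (a : R) (x y z : Fin 4 → R) : tri c (a • x) y z = a * tri c x y z := by
  simp only [tri, Pi.smul_apply, smul_eq_mul, Finset.mul_sum]
  exact Finset.sum_congr rfl fun _ _ => Finset.sum_congr rfl fun _ _ =>
    Finset.sum_congr rfl fun _ _ => by ring

theorem tri_smul₂ (a : R) (x y z : Fin 4 → R) : tri c x (a • y) z = a * tri c x y z := by
  simp only [tri, Pi.smul_apply, smul_eq_mul, Finset.mul_sum]
  exact Finset.sum_congr rfl fun _ _ => Finset.sum_congr rfl fun _ _ =>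
    Finset.sum_congr rfl fun _ _ => by ring

theorem tri_add₁ (x x' y z : Fin 4 → R) : tri c (x + x') y z = tri c x y z + tri c x' y z := by
  simp [tri, mul_add, add_mul, Finset.sum_add_distrib]

theorem tri_add₂ (x y y' z : Fin 4 → R) : tri c x (y + y') z = tri c x y z + tri c x y' z := by
  simp [tri, mul_add, add_mul, Finset.sum_add_distrib]

theorem tri_sub₁ (x x' y z : Fin 4 → R) : tri c (x - x') y z = tri c x y z - tri c x' y z := by
  simp [tri, mul_sub, sub_mul, Finset.sum_sub_distrib]

theorem tri_sub₂ (x y y' z : Fin 4 → R) : tri c x (y - y') z = tri c x y z - tri c x y' z := by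
  simp [tri, mul_sub, sub_mul, Finset.sum_sub_distrib]

theorem tri_eq_sum_grad (x r : Fin 4 → R) : tri c x x r = ∑ i, r i * grad c x i := by
  have key : ∀ s : Finset (Fin 4),
      tri c x x (∑ i ∈ s, r i • Pi.single i 1) = ∑ i ∈ s, r i * grad c x i := by
    intro s
    induction s using Finset.induction_on with
    | empty => simp [tri]
    | insert i s hi ih => rw [Finset.sum_insert hi, Finset.sum_insert hi, tri_add₃, tri_smul₃, ih,
        grad]
  rw [← key Finset.univ]
  congr 1
  funext k
  simp [Pi.single_apply]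

theorem tri_tanVec (i₀ j : Fin 4) (x : Fin 4 → R) : tri c x x (tanVec c i₀ j x) = 0 := by
  rw [tanVec, tri_sub₃, tri_smul₃, tri_smul₃, ← grad, ← grad]; ring

theorem tri_res_self (hc : IsSymm c) {A B : Fin 4 → R} (hA : tri c A A A = 0)
    (hB : tri c A A B = 0) : tri c (res c A B) (res c A B) (res c A B) = 0 := by
  have h1 : tri c A B A = 0 := by rw [tri_swap₂₃ hc, hB]
  have h2 : tri c B A A = 0 := by rw [tri_swap₁₂ hc, h1]
  have h3 : tri c B A B = tri c A B B := tri_swap₁₂ hc _ _ _
  have h4 : tri c B B A = tri c A B B := by rw [tri_swap₂₃ hc, h3]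
  simp only [res, tri_sub₁, tri_sub₂, tri_sub₃, tri_smul₁, tri_smul₂, tri_smul₃, hA, hB, h1, h2,
    h3, h4]
  ring

theorem tri_res₃ {A B : Fin 4 → R} (hA : tri c A A A = 0) (hB : tri c A A B = 0) :
    tri c A A (res c A B) = 0 := by
  rw [res, tri_sub₃, tri_smul₃, tri_smul₃, hA, hB]; ring

theorem res_smul (a b : R) (A B : Fin 4 → R) :
    res c (a • A) (b • B) = (a * b ^ 3) • res c A B := by
  funext i
  simp [res, tri_smul₁, tri_smul₂, tri_smul₃]
  ring

theorem grad_smul (a : R) (x : Fin 4 → R) (i : Fin 4) : grad c (a • x) i = a ^ 2 * grad c x i := by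
  simp [grad, tri_smul₁, tri_smul₂]; ring

theorem tanVec_smul (i₀ j : Fin 4) (a : R) (x : Fin 4 → R) :
    tanVec c i₀ j (a • x) = a ^ 2 • tanVec c i₀ j x := by
  simp [tanVec, grad_smul, smul_sub, smul_smul]

theorem map_tri (φ : R →ₐ[ℚ] S) (x y z : Fin 4 → R) :
    φ (tri c x y z) = tri c (φ ∘ x) (φ ∘ y) (φ ∘ z) := by
  simp [tri]

theorem comp_single (φ : R →ₐ[ℚ] S) (i : Fin 4) :
    (φ ∘ (Pi.single i 1 : Fin 4 → R)) = Pi.single i 1 := by
  funext k
  simp [Function.comp_apply, Pi.single_apply, apply_ite φ]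

theorem map_grad (φ : R →ₐ[ℚ] S) (x : Fin 4 → R) (i : Fin 4) :
    φ (grad c x i) = grad c (φ ∘ x) i := by
  rw [grad, map_tri, comp_single, grad]

theorem map_tanVec (φ : R →ₐ[ℚ] S) (i₀ j : Fin 4) (x : Fin 4 → R) :
    φ ∘ tanVec c i₀ j x = tanVec c i₀ j (φ ∘ x) := by
  funext k
  simp [tanVec, map_grad, Pi.single_apply, apply_ite φ]

theorem map_res (φ : R →ₐ[ℚ] S) (A B : Fin 4 → R) :
    φ ∘ res c A B = res c (φ ∘ A) (φ ∘ B) := by
  funext k
  simp [res, map_tri, map_ofNat]

theorem derivation_tri (D : Derivation ℚ R R) (x y z : Fin 4 → R) :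
    D (tri c x y z) =
      tri c (fun i => D (x i)) y z + tri c x (fun i => D (y i)) z +
        tri c x y (fun i => D (z i)) := by
  simp only [tri, map_sum, ← Finset.sum_add_distrib, Derivation.leibniz, Derivation.map_algebraMap,
    smul_eq_mul, mul_zero, add_zero]
  exact Finset.sum_congr rfl fun _ _ => Finset.sum_congr rfl fun _ _ =>
    Finset.sum_congr rfl fun _ _ => by ring

theorem derivation_res (hc : IsSymm c) (D : Derivation ℚ R R) (A B : Fin 4 → R) :
    (fun i => D (res c A B i)) =
      (3 * tri c (fun i => D (B i)) B B) • A + tri c B B B • (fun i => D (A i)) -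
        (3 * (tri c (fun i => D (A i)) B B + 2 * tri c A (fun i => D (B i)) B)) • B -
        (3 * tri c A B B) • (fun i => D (B i)) := by
  have h1 := tri_swap₁₂ hc B (fun i => D (B i)) B
  have h2 : tri c B B (fun i => D (B i)) = tri c (fun i => D (B i)) B B := by
    rw [tri_swap₂₃ hc, h1]
  have h3 := tri_swap₂₃ hc A B (fun i => D (B i))
  have hD3 : D 3 = 0 := by simpa using Derivation.map_natCast D 3
  funext k
  simp only [res, Pi.sub_apply, Pi.add_apply, Pi.smul_apply, smul_eq_mul, map_sub,
    Derivation.leibniz, derivation_tri, h1, h2, h3, hD3]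
  ring

end FA.SegreCubic
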