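import Fermat.Agent.SegreCubic.Forms
import Mathlib.Analysis.Complex.Polynomial.Basic
import Mathlib.Algebra.Polynomial.Roots
import Mathlib.Data.Fintype.Pi

/-!
# Coordinates at a good point

`dir t` runs through the tangent directions at `P`, `curvePt t` through the tangent plane section,
and `surfPt t u` through the tangent plane sections at these points.
-/

set_option autoImplicit false
set_option linter.unusedSectionVars false

noncomputable section

namespace FA.SegreCubic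

/-- A rational point and an adapted pair of tangent vectors. -/
structure Frame (c : Fin 4 → Fin 4 → Fin 4 → ℚ) where
  /-- The point. -/
  P : Fin 4 → ℚ
  /-- An index with nonzero derivative. -/
  i₀ : Fin 4
  /-- An index with nonzero coordinate. -/
  m : Fin 4
  /-- The third index. -/
  j₁ : Fin 4
  /-- The fourth index. -/
  j₂ : Fin 4
  symm : IsSymm c
  onSurface : tri c P P P = 0
  grad_ne : grad c P i₀ ≠ 0
  coord_ne : P m ≠ 0
  distinct : i₀ ≠ m ∧ i₀ ≠ j₁ ∧ i₀ ≠ j₂ ∧ m ≠ j₁ ∧ m ≠ j₂ ∧ j₁ ≠ j₂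

theorem four_indices : ∀ a b : Fin 4, a ≠ b → ∃ u v : Fin 4,
    a ≠ b ∧ a ≠ u ∧ a ≠ v ∧ b ≠ u ∧ b ≠ v ∧ u ≠ v := by
  decide

theorem four_cover : ∀ a b u v i : Fin 4, a ≠ b ∧ a ≠ u ∧ a ≠ v ∧ b ≠ u ∧ b ≠ v ∧ u ≠ v →
    i = a ∨ i = b ∨ i = u ∨ i = v := by
  decide

variable {c : Fin 4 → Fin 4 → Fin 4 → ℚ}

theorem exists_frame (hc : IsSymm c) {P : Fin 4 → ℚ} (hP : tri c P P P = 0)
    (hg : ∃ v, tri c P P v ≠ 0) : ∃ F : Frame c, F.P = P := by
  obtain ⟨v, hv⟩ := hg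
  rw [tri_eq_sum_grad] at hv
  obtain ⟨i₀, -, hi⟩ := Finset.exists_ne_zero_of_sum_ne_zero hv
  have hi₀ : grad c P i₀ ≠ 0 := right_ne_zero_of_mul hi
  obtain ⟨m, hm, hmi⟩ : ∃ m, P m ≠ 0 ∧ i₀ ≠ m := by
    by_contra! hall
    have h := tri_eq_sum_grad (c := c) P P
    rw [hP, Finset.sum_eq_single i₀ (fun m _ hne => by
      rw [by_contra fun e => hne (hall m e).symm, zero_mul]) (by simp)] at h
    have hPi : P i₀ = 0 := (mul_eq_zero.1 h.symm).resolve_right hi₀
    have h0 : P = 0 := funext fun m => by_contra fun e => e (by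
      have := hall m e; subst this; exact hPi)
    exact hi₀ (by simp [grad, tri, h0])
  obtain ⟨u, w, huw⟩ := four_indices i₀ m hmi
  exact ⟨⟨P, i₀, m, u, w, hc, hP, hi₀, hm, huw⟩, rfl⟩

namespace Frame

variable (T : Frame c) (R : Type*) [CommRing R] [Algebra ℚ R]

/-- The point, in any algebra. -/
def pt : Fin 4 → R := algebraMap ℚ R ∘ T.P

/-- The first tangent vector. -/
def dir₁ : Fin 4 → R := tanVec c T.i₀ T.j₁ (T.pt R)

/-- The second tangent vector. -/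
def dir₂ : Fin 4 → R := tanVec c T.i₀ T.j₂ (T.pt R)

variable {R}

/-- A tangent direction. -/
def dir (t : R) : Fin 4 → R := T.dir₁ R + t • T.dir₂ R

/-- The tangent plane section. -/
def curvePt (t : R) : Fin 4 → R := res c (T.pt R) (T.dir t)

/-- A tangent direction at a point. -/
def dirAt (x : Fin 4 → R) (u : R) : Fin 4 → R :=
  tanVec c T.i₀ T.j₁ x + u • tanVec c T.i₀ T.j₂ x

/-- The surface. -/
def surfPt (n t u : R) : Fin 4 → R := n • res c (T.curvePt t) (T.dirAt (T.curvePt t) u)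

theorem tri_pt : tri c (T.pt R) (T.pt R) (T.pt R) = 0 := by
  have h := (map_tri (c := c) (Algebra.ofId ℚ R) T.P T.P T.P).symm
  rw [T.onSurface, map_zero] at h
  exact h

theorem tri_pt_dir (t : R) : tri c (T.pt R) (T.pt R) (T.dir t) = 0 := by
  rw [dir, tri_add₃, tri_smul₃, dir₁, dir₂, tri_tanVec, tri_tanVec, mul_zero, add_zero]

theorem tri_curvePt (t : R) : tri c (T.curvePt t) (T.curvePt t) (T.curvePt t) = 0 :=
  tri_res_self T.symm T.tri_pt (T.tri_pt_dir t)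

theorem tri_dirAt (x : Fin 4 → R) (u : R) : tri c x x (T.dirAt x u) = 0 := by
  rw [dirAt, tri_add₃, tri_smul₃, tri_tanVec, tri_tanVec, mul_zero, add_zero]

theorem tri_surfPt (n t u : R) :
    tri c (T.surfPt n t u) (T.surfPt n t u) (T.surfPt n t u) = 0 := by
  simp only [surfPt, tri_smul₁, tri_smul₂, tri_smul₃,
    tri_res_self T.symm (T.tri_curvePt t) (T.tri_dirAt _ u), mul_zero]

variable {S : Type*} [CommRing S] [Algebra ℚ S] (φ : R →ₐ[ℚ] S)

theorem map_pt : φ ∘ T.pt R = T.pt S := by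
  funext i; simp [pt]

theorem map_dir (t : R) : φ ∘ T.dir t = T.dir (φ t) := by
  funext i
  have h₁ := congrFun (map_tanVec (c := c) φ T.i₀ T.j₁ (T.pt R)) i
  have h₂ := congrFun (map_tanVec (c := c) φ T.i₀ T.j₂ (T.pt R)) i
  simp only [Function.comp_apply, map_pt] at h₁ h₂
  simp [dir, dir₁, dir₂, h₁, h₂]

theorem map_curvePt (t : R) : φ ∘ T.curvePt t = T.curvePt (φ t) := by
  rw [curvePt, map_res, map_pt, map_dir]; rfl

theorem map_dirAt (x : Fin 4 → R) (u : R) : φ ∘ T.dirAt x u = T.dirAt (φ ∘ x) (φ u) := by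
  funext i
  have h₁ := congrFun (map_tanVec (c := c) φ T.i₀ T.j₁ x) i
  have h₂ := congrFun (map_tanVec (c := c) φ T.i₀ T.j₂ x) i
  simp only [Function.comp_apply] at h₁ h₂
  simp [dirAt, h₁, h₂]

theorem map_surfPt (n t u : R) : φ ∘ T.surfPt n t u = T.surfPt (φ n) (φ t) (φ u) := by
  funext i
  have h := congrFun (map_res (c := c) φ (T.curvePt t) (T.dirAt (T.curvePt t) u)) i
  rw [map_dirAt, map_curvePt] at h
  simp only [Function.comp_apply] at h
  simp [surfPt, h]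

theorem dir_m (t : R) : T.dir t T.m = 0 := by
  obtain ⟨h₁, h₂, h₃, h₄, h₅, h₆⟩ := T.distinct
  simp [dir, dir₁, dir₂, tanVec, h₁.symm, h₄, h₅]

theorem dir₂_m : T.dir₂ R T.m = 0 := by
  obtain ⟨h₁, h₂, h₃, h₄, h₅, h₆⟩ := T.distinct
  simp [dir₂, tanVec, h₁.symm, h₅]

theorem dir₁_m : T.dir₁ R T.m = 0 := by
  obtain ⟨h₁, h₂, h₃, h₄, h₅, h₆⟩ := T.distinct
  simp [dir₁, tanVec, h₁.symm, h₄]

theorem comb_j₁ (a b : R) : (a • T.dir₁ R + b • T.dir₂ R) T.j₁ =
    a * grad c (T.pt R) T.i₀ := by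
  obtain ⟨h₁, h₂, h₃, h₄, h₅, h₆⟩ := T.distinct
  simp [dir₁, dir₂, tanVec, h₂.symm, h₆]

theorem comb_j₂ (a b : R) : (a • T.dir₁ R + b • T.dir₂ R) T.j₂ =
    b * grad c (T.pt R) T.i₀ := by
  obtain ⟨h₁, h₂, h₃, h₄, h₅, h₆⟩ := T.distinct
  simp [dir₁, dir₂, tanVec, h₃.symm, h₆.symm]

theorem grad_pt (i : Fin 4) : grad c (T.pt R) i = algebraMap ℚ R (grad c T.P i) :=
  (map_grad (c := c) (Algebra.ofId ℚ R) T.P i).symm

theorem grad_pt_ne (K : Type*) [Field K] [Algebra ℚ K] : grad c (T.pt K) T.i₀ ≠ 0 := by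
  rw [T.grad_pt]
  exact (map_ne_zero_iff _ (algebraMap ℚ K).injective).2 T.grad_ne

theorem pt_m_ne (K : Type*) [Field K] [Algebra ℚ K] : T.pt K T.m ≠ 0 :=
  (map_ne_zero_iff _ (algebraMap ℚ K).injective).2 T.coord_ne

/-- The point and the two tangent vectors are independent. -/
theorem independent {K : Type*} [Field K] [Algebra ℚ K] {a b s : K}
    (h : a • T.dir₁ K + b • T.dir₂ K = s • T.pt K) : a = 0 ∧ b = 0 ∧ s = 0 := by
  have hm := congrFun h T.m
  simp only [Pi.add_apply, Pi.smul_apply, smul_eq_mul, T.dir₁_m, T.dir₂_m, mul_zero, add_zero] at hm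
  have hs : s = 0 := (mul_eq_zero.1 hm.symm).resolve_right (T.pt_m_ne K)
  subst hs
  rw [zero_smul] at h
  have h₁ := congrFun h T.j₁
  have h₂ := congrFun h T.j₂
  rw [T.comb_j₁, Pi.zero_apply] at h₁
  rw [T.comb_j₂, Pi.zero_apply] at h₂
  exact ⟨(mul_eq_zero.1 h₁).resolve_right (T.grad_pt_ne K),
    (mul_eq_zero.1 h₂).resolve_right (T.grad_pt_ne K), rfl⟩

/-- The tangent plane is spanned by the point and the two vectors. -/
theorem decompose {v : Fin 4 → ℚ} (hv : tri c T.P T.P v = 0) :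
    ∃ s a b : ℚ, v = s • T.pt ℚ + (a • T.dir₁ ℚ + b • T.dir₂ ℚ) := by
  have hpt : T.pt ℚ = T.P := funext fun i => by simp [pt]
  set s := v T.m / T.P T.m
  set a := (v T.j₁ - s * T.P T.j₁) / grad c T.P T.i₀ with ha
  set b := (v T.j₂ - s * T.P T.j₂) / grad c T.P T.i₀ with hb
  refine ⟨s, a, b, ?_⟩
  set d := v - (s • T.pt ℚ + (a • T.dir₁ ℚ + b • T.dir₂ ℚ)) with hd
  have dm : d T.m = 0 := by
    rw [hd, Pi.sub_apply, Pi.add_apply, Pi.smul_apply, Pi.add_apply, Pi.smul_apply, Pi.smul_apply,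
      T.dir₁_m, T.dir₂_m, hpt]
    simp [s, div_mul_cancel₀ _ T.coord_ne]
  have d₁ : d T.j₁ = 0 := by
    rw [hd, Pi.sub_apply, Pi.add_apply, T.comb_j₁, hpt, Pi.smul_apply, smul_eq_mul, ha,
      div_mul_cancel₀ _ T.grad_ne]
    ring
  have d₂ : d T.j₂ = 0 := by
    rw [hd, Pi.sub_apply, Pi.add_apply, T.comb_j₂, hpt, Pi.smul_apply, smul_eq_mul, hb,
      div_mul_cancel₀ _ T.grad_ne]
    ring
  have hP := T.onSurface
  have hd0 : tri c T.P T.P d = 0 := by
    simp only [hd, tri_sub₃, tri_add₃, tri_smul₃, dir₁, dir₂, hpt, tri_tanVec, hv, hP]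
    ring
  rw [tri_eq_sum_grad, Finset.sum_eq_single T.i₀ (fun i _ hne => ?_) (by simp)] at hd0
  · have di : d T.i₀ = 0 := (mul_eq_zero.1 hd0).resolve_right T.grad_ne
    refine sub_eq_zero.1 (funext fun i => ?_)
    rcases four_cover _ _ _ _ i T.distinct with rfl | rfl | rfl | rfl <;> assumption
  · rcases four_cover _ _ _ _ i T.distinct with rfl | rfl | rfl | rfl
    · exact absurd rfl hne
    · rw [dm, zero_mul]
    · rw [d₁, zero_mul]
    · rw [d₂, zero_mul]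

end Frame

end FA.SegreCubic
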